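import Fermat.Agent.SS.Mod.Lift
import Fermat.Agent.SS.Z1.KronInst
import Fermat.Agent.RED.Desc.Infty

/-!
# Project SS : [CUSP-ORD], route (C)

At the level `1 * q` the function `j` has exactly two poles: `v₁` (the `T`-adic place: `ord j = -1`,
`ord j' = -q`) and `v₂ = w_q v₁` (`ord j = -q`, `ord j' = -1`), because `deg (j)_∞ = q + 1`.  Hence
`j' ∈ L(q (j)_∞)` and `j ∈ L(q (j')_∞)`, and these memberships are transported to the level `M * q`
along the inclusion of function fields.
-/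

set_option autoImplicit false
set_option linter.unusedSectionVars false
set_option linter.style.haveILetI false

noncomputable section

open Polynomial AlgebraicCurve ModularCurve IntermediateField

namespace Fermat.Agent.SS

open Fermat.Agent.RED Fermat.Agent.RED.Gauss Fermat.Agent.S24 Fermat.Agent.S28
open Fermat.Agent.RED.Cusp (Fb jb)

section General

theorem order_qExpand_field {K : Type*} [Field K] (M : ℕ) [NeZero M] (f : LaurentSeries K) :
    (qExpand K M f).order = (M : ℤ) * f.order := by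
  by_cases hf : f = 0
  · subst hf; simp
  have hM : (0 : ℤ) < M := by exact_mod_cast Nat.pos_of_ne_zero (NeZero.ne M)
  have h1 : (qExpand K M f).coeff ((M : ℤ) * f.order) ≠ 0 := by
    rw [qExpand_coeff_mul]
    exact fun h => hf (HahnSeries.coeff_order_eq_zero.mp h)
  apply le_antisymm (HahnSeries.order_le_of_coeff_ne_zero h1)
  have hne : qExpand K M f ≠ 0 := HahnSeries.ne_zero_of_coeff_ne_zero h1
  have h2 : (qExpand K M f).coeff (qExpand K M f).order ≠ 0 :=
    fun h => hne (HahnSeries.coeff_order_eq_zero.mp h)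
  by_cases hd : (M : ℤ) ∣ (qExpand K M f).order
  · obtain ⟨k, hk⟩ := hd
    rw [hk, qExpand_coeff_mul] at h2
    rw [hk]
    exact mul_le_mul_of_nonneg_left (HahnSeries.order_le_of_coeff_ne_zero h2) hM.le
  · exact absurd (qExpand_coeff_of_not_dvd M f hd) h2

variable {K F : Type*} [Field K] [Field F] [Algebra K F] [IsAlgClosed K]

/-- an effective divisor below the polar divisor with the same degree is the polar divisor -/
theorem polarDiv_eq_of_two_poles {x₀ : F} (hx₀ : IsSepParam K x₀) {f : F} {v₁ v₂ : Place K F}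
    (hv : v₁ ≠ v₂) {a b : ℕ} (h₁ : v₁.ord f = -(a : ℤ)) (h₂ : v₂.ord f = -(b : ℤ))
    (hdeg : Divisor.degree (polarDiv K f) = (a : ℤ) + b) :
    polarDiv K f = Finsupp.single v₁ (a : ℤ) + Finsupp.single v₂ (b : ℤ) := by
  have hle : Finsupp.single v₁ (a : ℤ) + Finsupp.single v₂ (b : ℤ) ≤ polarDiv K f := by
    intro v
    rw [Finsupp.add_apply, hx₀.polarDiv_apply]
    by_cases e1 : v = v₁
    · subst e1
      rw [Finsupp.single_eq_same, Finsupp.single_eq_of_ne hv, h₁]
      simp
    · by_cases e2 : v = v₂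
      · subst e2
        rw [Finsupp.single_eq_same, Finsupp.single_eq_of_ne (Ne.symm hv), h₂]
        simp
      · rw [Finsupp.single_eq_of_ne e1, Finsupp.single_eq_of_ne e2]
        simp
  have hd : Divisor.degree
      (polarDiv K f - (Finsupp.single v₁ (a : ℤ) + Finsupp.single v₂ (b : ℤ))) = 0 := by
    rw [map_sub, map_add, Divisor.degree_single, Divisor.degree_single, hx₀.deg_eq_one,
      hx₀.deg_eq_one, hdeg]
    simp
  exact sub_eq_zero.mp (hx₀.eq_zero_of_degree_eq_zero (sub_nonneg.mpr hle) hd)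

/-- from membership in `L(D)`, `D ≥ 0`, to the inequality of polar divisors -/
theorem polarDiv_le_of_mem_L {x₀ : F} (hx₀ : IsSepParam K x₀) {f : F} (hf : f ≠ 0)
    {D : Divisor K F} (hD : 0 ≤ D) (h : f ∈ riemannRochSpace D) : polarDiv K f ≤ D := by
  intro v
  rw [hx₀.polarDiv_apply]
  have := (mem_L_iff_of_ne_zero hf).1 h v
  exact max_le (by linarith) (hD v)

end General

section Places

variable {M q : ℕ} [NeZero M] [hq : Fact q.Prime] (hqM : ¬ q ∣ M)

/-- `w_q` as an algebra automorphism -/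
def swEquiv : FN (M * q) ≃ₐ[Kb] FN (M * q) :=
  AlgEquiv.ofAlgHom (swAlg M q hqM) (swAlg M q hqM)
    (AlgHom.ext fun y => swAlg_swAlg hqM y) (AlgHom.ext fun y => swAlg_swAlg hqM y)

theorem swEquiv_apply (y : FN (M * q)) : swEquiv hqM y = swAlg M q hqM y := rfl

theorem order_coe_jF' : ((jF' M q : FN (M * q)) : LaurentSeries Kb).order = -(q : ℤ) := by
  rw [jF', coe_heckeBetaBar, order_qExpand_field, Desc.order_coe_jF]
  ring

theorem jF'_ne_zero : jF' M q ≠ 0 := by
  intro h
  have := order_coe_jF' (M := M) (q := q)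
  rw [h] at this
  have hq0 := hq.out.pos
  simp at this
  omega

include hqM in
/-- the two distinguished cusps of `X₀(M q)` -/
theorem exists_two_places : ∃ v₁ v₂ : Place Kb (FN (M * q)), v₁ ≠ v₂ ∧
    v₁.ord (jF (M * q)) = -((1 : ℕ) : ℤ) ∧ v₂.ord (jF (M * q)) = -(q : ℤ) ∧
    v₁.ord (jF' M q) = -(q : ℤ) ∧ v₂.ord (jF' M q) = -((1 : ℕ) : ℤ) := by
  obtain ⟨v₁, hv₁⟩ := Desc.exists_place_infty (M * q)
  set g : SemilinearAut Kb (FN (M * q)) := SemilinearAut.ofAlgAut (swEquiv hqM) with hg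
  have hv₂ : ∀ f : FN (M * q), (g • v₁).ord f = v₁.ord (swAlg M q hqM f) := by
    intro f
    have h1 := SemilinearAut.ord_smul g v₁ (swAlg M q hqM f)
    have h2 : g • swAlg M q hqM f = f := by
      rw [hg, SemilinearAut.ofAlgAut_smul, swEquiv_apply, swAlg_swAlg]
    rwa [h2] at h1
  have a1 : v₁.ord (jF (M * q)) = -((1 : ℕ) : ℤ) := by
    rw [hv₁ _ (Desc.jF_ne_zero _), Desc.order_coe_jF]; rfl
  have a2 : v₁.ord (jF' M q) = -(q : ℤ) := by
    rw [hv₁ _ jF'_ne_zero, order_coe_jF']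
  have b1 : (g • v₁).ord (jF (M * q)) = -(q : ℤ) := by rw [hv₂, swAlg_jF, a2]
  have b2 : (g • v₁).ord (jF' M q) = -((1 : ℕ) : ℤ) := by rw [hv₂, swAlg_jF', a1]
  refine ⟨v₁, g • v₁, ?_, a1, b1, a2, b2⟩
  intro h
  rw [← h, a1] at b1
  have := hq.out.two_le
  push_cast at b1
  omega

end Places

section LevelOne

variable {q : ℕ} [hq : Fact q.Prime]

/-- **[CUSP-ORD]** at the level `1 * q` -/
theorem cuspOrd_one : CuspOrd 1 q := by
  classical
  have hq1 : ¬ q ∣ 1 := hq.out.not_dvd_one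
  obtain ⟨v₁, v₂, hv, a1, b1, a2, b2⟩ := exists_two_places (M := 1) hq1
  have hs := RB.isSepParam_jF (1 * q)
  have d1 : Divisor.degree (polarDiv Kb (jF (1 * q))) = ((1 : ℕ) : ℤ) + (q : ℕ) := by
    rw [degree_polarDiv_jF hq1, dedekindPsi_one]; push_cast; ring
  have d2 : Divisor.degree (polarDiv Kb (jF' 1 q)) = ((q : ℕ) : ℤ) + (1 : ℕ) := by
    rw [degree_polarDiv_jF' hq1, dedekindPsi_one]; push_cast; ring
  have e1 := polarDiv_eq_of_two_poles hs hv a1 b1 d1
  have e2 := polarDiv_eq_of_two_poles hs hv a2 b2 d2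
  have hq0 : (1 : ℤ) ≤ q := by exact_mod_cast hq.out.one_le
  refine ⟨?_, ?_⟩
  · rw [e1, e2]
    intro v
    simp only [Finsupp.add_apply, Finsupp.smul_apply, Finsupp.single_apply, nsmul_eq_mul]
    split_ifs <;> push_cast <;> nlinarith
  · rw [e1, e2]
    intro v
    simp only [Finsupp.add_apply, Finsupp.smul_apply, Finsupp.single_apply, nsmul_eq_mul]
    split_ifs <;> push_cast <;> nlinarith

end LevelOne

section Transfer

variable {M q : ℕ} [NeZero M] [hq : Fact q.Prime]

theorem FN_le_of_dvd {N N' : ℕ} (h : N ∣ N') :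
    modularFunctionFieldBar N ≤ modularFunctionFieldBar N' := by
  intro x hx
  refine bar_le N (modularFunctionFieldBar N').toSubfield ?_ ?_ x hx
  · intro a
    exact (modularFunctionFieldBar N').algebraMap_mem a
  · intro d _ hd
    rw [← jBarSeries_eq]
    exact jBarSeries_mem N' d (hd.trans h)

/-- the inclusion of the function field of level `1 * q` -/
def incl (M q : ℕ) : FN (1 * q) →ₐ[Kb] FN (M * q) :=
  IntermediateField.inclusion (FN_le_of_dvd (Nat.mul_dvd_mul_right (one_dvd M) q))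

theorem incl_jF : incl M q (jF (1 * q)) = jF (M * q) := Subtype.ext rfl

theorem incl_jF' : incl M q (jF' 1 q) = jF' M q := by
  apply Subtype.ext
  show ((jF' 1 q : FN (1 * q)) : LaurentSeries Kb) = ((jF' M q : FN (M * q)) : LaurentSeries Kb)
  rw [jF', jF', coe_heckeBetaBar, coe_heckeBetaBar]
  rfl

/-- **[CUSP-ORD]** -/
theorem cuspOrd (M q : ℕ) [NeZero M] [hq : Fact q.Prime] : CuspOrd M q := by
  obtain ⟨c1, c2⟩ := cuspOrd_one (q := q)
  have hs1 := RB.isSepParam_jF (1 * q)
  have hs := RB.isSepParam_jF (M * q)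
  have m1 : jF' 1 q ∈ riemannRochSpace (q • polarDiv Kb (jF (1 * q))) :=
    L_mono c1 (hs1.mem_L_polarDiv _)
  have m2 : jF (1 * q) ∈ riemannRochSpace (q • polarDiv Kb (jF' 1 q)) :=
    L_mono c2 (hs1.mem_L_polarDiv _)
  have n1 := map_mem_L_polar (incl M q) hs1 hs (Desc.jF_ne_zero _) q m1
  have n2 := map_mem_L_polar (incl M q) hs1 hs jF'_ne_zero q m2
  rw [incl_jF, incl_jF'] at n1 n2
  exact ⟨polarDiv_le_of_mem_L hs jF'_ne_zero (smul_nonneg (Nat.zero_le q) (polarDiv_nonneg _)) n1,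
    polarDiv_le_of_mem_L hs (Desc.jF_ne_zero _) (smul_nonneg (Nat.zero_le q) (polarDiv_nonneg _))
      n2⟩

end Transfer

end Fermat.Agent.SS
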