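import Fermat.Agent.SS.Z1.KronFields
import Fermat.Agent.RED.Deuring.Modular
import Fermat.Agent.RED.NonSpecial
import Fermat.Agent.RED.S18Main
import Fermat.Agent.RR.Hurwitz

/-!
# Project SS : [LIFT]  lifting sections from the special fibre of level `M` (rigid) to level `M q`

`v ∈ L(n (j̄)_∞)` on `Fb_M` lifts, for `n` large, to `f ∈ L(n (j)_∞) ∩ O` on `F_M` (Deuring's theory
at the level `M`, which has good reduction), and `α f`, `β f` are the lifts of `(v, Fr v)`,
`(Fr v, v)` at the level `M q`.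
-/

set_option autoImplicit false
set_option linter.unusedSectionVars false
set_option linter.style.haveILetI false

noncomputable section

open Polynomial AlgebraicCurve ModularCurve IntermediateField

namespace Fermat.Agent.SS

open Fermat.Agent.RED Fermat.Agent.RED.Gauss Fermat.Agent.S24 Fermat.Agent.S28
open Fermat.Agent.RED.Cusp (Fb jb)

section General

variable {K F F' : Type*} [Field K] [Field F] [Algebra K F] [Field F'] [Algebra K F']

/-- pull-back of `L(n (x)_∞)` along a homomorphism of function fields -/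
theorem map_mem_L_polar (φ : F →ₐ[K] F') {x₀ : F} (hx₀ : IsSepParam K x₀) {x₀' : F'}
    (hx₀' : IsSepParam K x₀') {x : F} (hx : x ≠ 0) (n : ℕ) {u : F}
    (hu : u ∈ riemannRochSpace (n • polarDiv K x)) :
    φ u ∈ riemannRochSpace (n • polarDiv K (φ x)) := by
  obtain ⟨I1, I2⟩ := (mem_L_polar_iff hx₀ hx n u).mp hu
  have J1 := isIntegralElem_map φ I1
  have J2 := isIntegralElem_map φ I2
  rw [map_inv₀, map_mul, map_pow, map_inv₀] at J2
  exact (mem_L_polar_iff hx₀' ((map_ne_zero φ).2 hx) n _).mpr ⟨J1, J2⟩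

variable {k Fb : Type*} [Field k] [Field Fb] [Algebra k Fb] [IsAlgClosed K] [IsAlgClosed k]

/-- no cancellation between zeros and poles in the fibres of the reduction map, if the degree is
preserved -/
theorem mapDomain_polarDiv_of_P1 (R : RedData K F k Fb) (r : Place K F → Place k Fb)
    (hP1 : ∀ (x : R.O), R.red x ≠ 0 → ∀ D : Divisor K F, (∀ v : Place K F, D v = v.ord (x : F)) →
        ∀ Q : Place k Fb, (D.mapDomain r) Q = Q.ord (R.red x))
    (x : R.O) (hx : IsSepParam K (x : F)) (hxb : IsSepParam k (R.red x))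
    (hdeg : Divisor.degree (polarDiv K (x : F)) = Divisor.degree (polarDiv k (R.red x))) :
    (polarDiv K (x : F)).mapDomain r = polarDiv k (R.red x) := by
  have hle : polarDiv k (R.red x) ≤ (polarDiv K (x : F)).mapDomain r := by
    intro Q
    rw [hxb.polarDiv_apply, ← hP1 x hxb.ne_zero (dv K (x : F)) (hx.dv_apply _) Q]
    refine max_le ?_ (mapDomain_apply_nonneg r _ Q fun P _ => polarDiv_nonneg _ P)
    rw [← mapDomain_neg_apply]
    exact mapDomain_apply_mono r le_sup_left Q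
  have hd : Divisor.degree ((polarDiv K (x : F)).mapDomain r - polarDiv k (R.red x)) = 0 := by
    rw [map_sub, degree_mapDomain_of_deg_eq_one r hx.deg_eq_one hxb.deg_eq_one, hdeg, sub_self]
  exact sub_eq_zero.mp (hxb.eq_zero_of_degree_eq_zero (sub_nonneg.mpr hle) hd)

/-- **lifting sections** under Deuring's hypotheses -/
theorem exists_lift_of_deuringHyp (R : RedData K F k Fb) {g c : ℤ} (H : DeuringHyp R g c)
    (x : R.O) (hx : IsSepParam K (x : F)) (hxb : IsSepParam k (R.red x))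
    (hdeg : Divisor.degree (polarDiv K (x : F)) = Divisor.degree (polarDiv k (R.red x))) :
    ∃ n₀ : ℕ, ∀ n : ℕ, n₀ ≤ n → ∀ v : Fb, v ∈ riemannRochSpace (n • polarDiv k (R.red x)) →
      ∃ f : R.O, (f : F) ∈ riemannRochSpace (n • polarDiv K (x : F)) ∧ R.red f = v := by
  obtain ⟨r, -, hP1, hL⟩ := H.exists_placeMap
  have hmap := mapDomain_polarDiv_of_P1 R r hP1 x hx hxb hdeg
  have hpos : 0 < Divisor.degree (polarDiv K (x : F)) := hx.degree_polarDiv_pos
  refine ⟨(c + g).toNat, fun n hn v hv => ?_⟩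
  have hD : c + g ≤ Divisor.degree (n • polarDiv K (x : F)) := by
    rw [map_nsmul, nsmul_eq_mul]
    have h1 : c + g ≤ (n : ℤ) := by
      have := Int.self_le_toNat (c + g)
      have h2 : ((c + g).toNat : ℤ) ≤ n := by exact_mod_cast hn
      linarith
    have h0 : (0 : ℤ) ≤ n := Int.natCast_nonneg n
    nlinarith
  have h1 := hL _ hD
  have h2 : (n • polarDiv K (x : F)).mapDomain r = n • polarDiv k (R.red x) := by
    rw [← hmap, ← Finsupp.mapDomain.addMonoidHom_apply r, map_nsmul,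
      Finsupp.mapDomain.addMonoidHom_apply]
  rw [h2, LS_eq_riemannRochSpace, LS_eq_riemannRochSpace] at h1
  rw [← h1] at hv
  obtain ⟨f, hf, hfv⟩ := hv
  exact ⟨f, hf, hfv⟩

end General

variable {M q : ℕ} [NeZero M] [hq : Fact q.Prime] (hqM : ¬ q ∣ M)
variable {A : ValuationSubring Kb} {k : Type} [Field k]
variable (π : A →+* k) [CharP k q] [IsAlgClosed k] (hπ : Function.Surjective π)

include hqM hπ in
/-- **lifting sections at the level `M`** (rigid: `4 ∣ M` or `9 ∣ M`) -/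
theorem exists_lift_level_L (h49 : 4 ∣ M ∨ 9 ∣ M) :
    ∃ n₀ : ℕ, ∀ n : ℕ, n₀ ≤ n → ∀ v : Fb k M, v ∈ riemannRochSpace (n • polarDiv k (jb k M)) →
      ∃ (f : FN M) (hf : (f : LaurentSeries Kb) ∈ bigO π),
        f ∈ riemannRochSpace (n • polarDiv Kb (jF M)) ∧
        (v : LaurentSeries k) = bigRed π ⟨f, hf⟩ := by
  obtain ⟨u, h⟩ := exists_isCoreExt M q hqM
  set R := gaussRedData π hπ (card_Q_pos M) h with hR
  have hgen : gR Kb (FN M) ≤ gR k (Fb k M) :=
    gen_of_rhRel M (fun _ _ _ _ _ _ _ _ _ _ _ _ h1 h2 => Fermat.Agent.RR.rhRel h1 h2) h49 k hqM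
  obtain ⟨c, H⟩ := exists_deuringHyp R (RB.isSepParam_jF M) (sep_jb (k := k) hqM) hgen
    (gaussRedData_on π hπ (card_Q_pos M) h)
  have hjmem : (jF M : FN M) ∈ R.O := by
    show ((jF M : FN M) : LaurentSeries Kb) ∈ bigO π
    rw [coe_jF_eq_iota (A := A)]
    exact iota_mem_bigO π _
  have hjred : R.red ⟨jF M, hjmem⟩ = jb k M := by
    apply Subtype.ext
    show bigRed π ⟨((jF M : FN M) : LaurentSeries Kb), _⟩ = jqModC k
    rw [bigRed_eq π _ (a := jqModC A) (b := 1) (by simp)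
      (by simp only [map_one, mul_one]; exact coe_jF_eq_iota), pi_jqModC]
    simp
  have hdeg : Divisor.degree (polarDiv Kb (((⟨jF M, hjmem⟩ : R.O)) : FN M)) =
      Divisor.degree (polarDiv k (R.red ⟨jF M, hjmem⟩)) := by
    rw [hjred, degree_polarDiv_jb hqM, (RB.isSepParam_jF M).degree_polarDiv, RB.finrank_jF]
  obtain ⟨n₀, hn₀⟩ := exists_lift_of_deuringHyp R H ⟨jF M, hjmem⟩ (RB.isSepParam_jF M)
    (by rw [hjred]; exact sep_jb (k := k) hqM) hdeg
  refine ⟨n₀, fun n hn v hv => ?_⟩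
  rw [← hjred] at hv
  obtain ⟨f, hf, hfv⟩ := hn₀ n hn v hv
  exact ⟨f, f.2, hf, by rw [← hfv]; rfl⟩

theorem jF_ne_zero (N : ℕ) [NeZero N] : jF N ≠ 0 := (RB.isSepParam_jF N).ne_zero

/-- **[LIFT]** in the shape of `KronData.lift`, `KronData.lift'`. -/
theorem exists_lift_twoRed (h49 : 4 ∣ M ∨ 9 ∣ M) :
    ∃ n₀ : ℕ,
      (∀ n : ℕ, n₀ ≤ n → ∀ v : Fb k M, v ∈ riemannRochSpace (n • polarDiv k (jb k M)) →
        ∃ u : (twoRed hqM π hπ).O,
          (u : FN (M * q)) ∈ riemannRochSpace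
            (n • polarDiv Kb ((jT hqM π hπ : (twoRed hqM π hπ).O) : FN (M * q))) ∧
          (twoRed hqM π hπ).red u = (v, FrAlg M q k v)) ∧
      (∀ n : ℕ, n₀ ≤ n → ∀ v : Fb k M, v ∈ riemannRochSpace (n • polarDiv k (jb k M)) →
        ∃ u : (twoRed hqM π hπ).O,
          (u : FN (M * q)) ∈ riemannRochSpace
            (n • polarDiv Kb ((jT' hqM π hπ : (twoRed hqM π hπ).O) : FN (M * q))) ∧
          (twoRed hqM π hπ).red u = (FrAlg M q k v, v)) := by
  obtain ⟨n₀, hn₀⟩ := exists_lift_level_L hqM π hπ h49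
  refine ⟨n₀, fun n hn v hv => ?_, fun n hn v hv => ?_⟩
  · obtain ⟨f, hf, hfL, hfv⟩ := hn₀ n hn v hv
    refine ⟨⟨heckeAlphaBar Kb M q f, by rw [twoRed_O]; exact alpha_mem hqM π hπ hf⟩, ?_, ?_⟩
    · have := map_mem_L_polar (heckeAlphaBar Kb M q) (RB.isSepParam_jF M)
        (RB.isSepParam_jF (M * q)) (jF_ne_zero M) n hfL
      rw [alpha_jF] at this
      exact this
    · rw [twoRed_red]
      exact rd_alpha hqM π hπ hf hfv
  · obtain ⟨f, hf, hfL, hfv⟩ := hn₀ n hn v hv
    refine ⟨⟨heckeBetaBar Kb M q f, by rw [twoRed_O]; exact beta_mem hqM π hπ hf⟩, ?_, ?_⟩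
    · exact map_mem_L_polar (heckeBetaBar Kb M q) (RB.isSepParam_jF M)
        (RB.isSepParam_jF (M * q)) (jF_ne_zero M) n hfL
    · rw [twoRed_red]
      exact rd_beta hqM π hπ hf hfv

end Fermat.Agent.SS
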