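import Fermat.Agent.SS.Mod.Unip
import Fermat.Agent.SS.Mod.Lift
import Fermat.Agent.SS.Z1.KronInst
import Fermat.Agent.SS.Nodal.Main
import Fermat.Agent.GAL.Final

/-!
# Project SS : S34 from [CUSP-ORD]
-/

set_option autoImplicit false
set_option linter.unusedSectionVars false
set_option linter.style.haveILetI false

noncomputable section

open AlgebraicCurve ModularCurve IsLocalRing

namespace Fermat.Agent.SS

open Fermat.Agent.RED hiding Kb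
open Fermat.Agent.S24
open Fermat.Agent.RED.Cusp (Fb jb)

/-- the nodal datum at the rigid level `M * q` from [CUSP-ORD] -/
theorem hasNodal_of_cuspOrd {M q : ℕ} [NeZero M] [hq : Fact q.Prime] (hqM : ¬ q ∣ M)
    (h49 : 4 ∣ M ∨ 9 ∣ M) (hc : CuspOrd M q) : HasNodal M q hqM := by
  intro A hA _ _
  obtain ⟨n₀, hl⟩ := exists_lift_twoRed hqM (IsLocalRing.residue A)
    IsLocalRing.residue_surjective h49
  obtain ⟨𝒩, hP, -⟩ := (kronData hqM (IsLocalRing.residue A) IsLocalRing.residue_surjective hc n₀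
    hl).exists_nodalData (fun π c hc0 hπ hπ' => by
      rw [twoRed_A] at hπ hπ' ⊢
      exact arch_of_liesOverPrime A hq.out hA π c hc0 hπ hπ')
  exact ⟨𝒩, hP⟩

/-- arithmetic of the levels: `N = M₀ q`, `q ∤ M₀`, `N * aux q = (M₀ * aux q) * q`. -/
theorem exists_level {N q : ℕ} [NeZero N] (hq : q.Prime) (hqN : q ∣ N) (hq2 : ¬ q ^ 2 ∣ N) :
    ∃ M : ℕ, M ≠ 0 ∧ ¬ q ∣ M ∧ (4 ∣ M ∨ 9 ∣ M) ∧ N * aux q = M * q := by
  obtain ⟨M₀, rfl⟩ := hqN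
  have hM₀ : M₀ ≠ 0 := by
    rintro rfl
    exact NeZero.ne (q * 0) (mul_zero q)
  have hqM₀ : ¬ q ∣ M₀ := by
    rintro ⟨c, rfl⟩
    exact hq2 ⟨c, by ring⟩
  refine ⟨M₀ * aux q, mul_ne_zero hM₀ (NeZero.ne _), not_dvd_mul_aux hq hqM₀, ?_, by ring⟩
  rcases aux_eq q with h | h <;> rw [h] <;> simp

/-- `UNIP` from [CUSP-ORD] at all rigid levels. -/
theorem unip_of_cuspOrd
    (hC : ∀ (M q : ℕ) [NeZero M] [Fact q.Prime], ¬ q ∣ M → CuspOrd M q)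
    {N q p : ℕ} [NeZero N] (hq : q.Prime) (hp : p.Prime) (hqp : q ≠ p) (hqN : q ∣ N)
    (hq2 : ¬ q ^ 2 ∣ N) : GAL.PC.UNIP N p q := by
  obtain ⟨M, hM, hqM, h49, hN⟩ := exists_level hq hqN hq2
  haveI : NeZero M := ⟨hM⟩
  haveI : Fact q.Prime := ⟨hq⟩
  exact unip_of_hasNodal_aux hqM hN (hasNodal_of_cuspOrd hqM h49 (hC M q hqM)) hp hqp.symm

variable {𝒪 : Type} [CommRing 𝒪] [IsDomain 𝒪] [IsDiscreteValuationRing 𝒪]
    [IsAdicComplete (maximalIdeal 𝒪) 𝒪]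
    {p : ℕ} {N : ℕ} [NeZero N] {S : Finset ℕ}
    {θ : CuspForm.heckeAlgebra N 2 (↑S : Set ℕ) →+* ResidueField 𝒪}
    {T : Type} [CommRing T] [IsLocalRing T] [IsNoetherianRing T]
    [IsAdicComplete (maximalIdeal T) T] [Algebra 𝒪 T] [IsLocalHom (algebraMap 𝒪 T)]
    [Module.Finite 𝒪 T] [Module.Free 𝒪 T]

/-- **S34** from [CUSP-ORD]. -/
theorem s34_of_cuspOrd
    (hC : ∀ (M q : ℕ) [NeZero M] [Fact q.Prime], ¬ q ∣ M → CuspOrd M q)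
    (hp : p.Prime) (hp𝒪 : (p : 𝒪) ∈ maximalIdeal 𝒪)
    (hpS : p ∈ S) (hNS : ∀ q : ℕ, q.Prime → q ∣ N → q ∈ S)
    (H : CuspForm.HeckeGaloisRepDatum N (↑S : Set ℕ) 𝒪 θ T)
    (q : ℕ) (hq : q.Prime) (hqp : q ≠ p) (hqN : q ∣ N) (hq2 : ¬ q ^ 2 ∣ N) :
    H.ρ.IsUnipotentOnInertiaAt q :=
  GAL.PC.s34_of_interfaces
    (GAL.Final.es (fun _ _ _ _ _ _ _ _ _ _ _ _ h1 h2 => Fermat.Agent.RR.rhRel h1 h2) N p)
    (fun k => GAL.Final.sup N (p ^ k) (pow_ne_zero k hp.ne_zero)) hp hp𝒪 hpS hNS H q hq hqp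
    (unip_of_cuspOrd hC hq hp hqp hqN hq2)

end Fermat.Agent.SS
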