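import Fermat.Agent.RED.Gauss.FamilyExt
import Fermat.Agent.SS.Z1.KronInst

/-!
# SS / [CUSP-ORD], route (B) : `(j_q)_∞ ≤ q (j)_∞` and `(j)_∞ ≤ q (j_q)_∞`

The modular equation `Φ_q(j, j_q) = 0`, with `Φ_q = Xⁿ + ∑ P_i(j) X^i`, `deg P_i ≤ q (n - i)`.
-/

set_option autoImplicit false
set_option linter.unusedSectionVars false
noncomputable section
open Polynomial ModularCurve AlgebraicCurve UpperHalfPlane ModularForm
open scoped MatrixGroups

namespace Fermat.Agent.SS.CuspB

open Fermat.Agent.RED Fermat.Agent.S24 Fermat.Agent.S28 Fermat.Agent.Common CongruenceSubgroup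

section Laurent

variable {L : Type*} [Field L]

/-- the coefficients of index `< a` vanish -/
def Low (x : LaurentSeries L) (a : ℤ) : Prop := ∀ k : ℤ, k < a → x.coeff k = 0

theorem Low.mul {x y : LaurentSeries L} {a b : ℤ} (hx : Low x a) (hy : Low y b) :
    Low (x * y) (a + b) := by
  intro k hk
  rcases eq_or_ne x 0 with rfl | hx0
  · simp
  rcases eq_or_ne y 0 with rfl | hy0
  · simp
  apply HahnSeries.coeff_eq_zero_of_lt_order
  rw [HahnSeries.order_mul hx0 hy0]
  have h1 : a ≤ x.order := (HahnSeries.le_order_iff_forall hx0).mpr hx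
  have h2 : b ≤ y.order := (HahnSeries.le_order_iff_forall hy0).mpr hy
  linarith

theorem Low.sub {x y : LaurentSeries L} {a : ℤ} (hx : Low x a) (hy : Low y a) :
    Low (x - y) a := by
  intro k hk
  rw [HahnSeries.coeff_sub, hx k hk, hy k hk, sub_zero]

theorem Low.neg {x : LaurentSeries L} {a : ℤ} (hx : Low x a) : Low (-x) a := by
  intro k hk
  rw [HahnSeries.coeff_neg, hx k hk, neg_zero]

theorem low_coeff_prod {ι : Type*} [DecidableEq ι] (s : Finset ι) (H : ι → LaurentSeries L)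
    (B : ℤ) (hH : ∀ c ∈ s, Low (H c) (-B)) (i : ℕ) :
    Low ((∏ c ∈ s, (X - C (H c))).coeff i) (-(B * ((s.card : ℤ) - i))) := by
  induction s using Finset.induction_on generalizing i with
  | empty =>
    intro k hk
    rw [Finset.prod_empty, coeff_one]
    split_ifs with h
    · subst h
      simp only [Finset.card_empty, Nat.cast_zero, sub_zero, mul_zero, neg_zero] at hk
      rw [HahnSeries.coeff_one, if_neg hk.ne]
    · simp
  | insert a s ha ih =>
    have ih' := fun i => ih (fun c hc => hH c (Finset.mem_insert_of_mem hc)) i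
    have hA := hH a (Finset.mem_insert_self a s)
    rw [Finset.prod_insert ha, Finset.card_insert_of_notMem ha, sub_mul]
    cases i with
    | zero =>
      rw [coeff_sub, coeff_X_mul_zero, zero_sub, coeff_C_mul]
      have := (hA.mul (ih' 0)).neg
      convert this using 1
      push_cast; ring
    | succ i =>
      rw [coeff_sub, coeff_X_mul, coeff_C_mul]
      have h1 := ih' i
      have h2 := hA.mul (ih' (i + 1))
      have e1 : -(B * (((s.card + 1 : ℕ) : ℤ) - ((i + 1 : ℕ) : ℤ))) = -(B * ((s.card : ℤ) - i)) := by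
        push_cast; ring
      have e2 : -(B * (((s.card + 1 : ℕ) : ℤ) - ((i + 1 : ℕ) : ℤ))) =
          -B + -(B * ((s.card : ℤ) - ((i + 1 : ℕ) : ℤ))) := by
        push_cast; ring
      refine Low.sub ?_ ?_
      · rw [e1]; exact h1
      · rw [e2]; exact h2

end Laurent

/-- algebraic numbers come from `ℚ̄` -/
theorem mem_range_iotaK_of_isAlgebraic (x : ℂ) (hx : IsAlgebraic ℚ x) :
    x ∈ iotaK.toRingHom.range := by
  have h1 : IsAlgClosed iotaK.fieldRange :=
    IsAlgClosed.of_ringEquiv Kb iotaK.fieldRange (AlgEquiv.ofInjectiveField iotaK).toRingEquiv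
  have h2 : IsAlgebraic iotaK.fieldRange x := hx.tower_top _
  have h3 : IsIntegral iotaK.fieldRange x := h2.isIntegral
  obtain ⟨y, hy⟩ := minpoly.mem_range_of_degree_eq_one iotaK.fieldRange x
    (IsAlgClosed.degree_eq_one_of_irreducible _ (minpoly.irreducible h3))
  obtain ⟨a, ha⟩ := y.2
  exact ⟨a, by rw [← hy]; exact ha⟩

theorem NInt_le_range (N : ℕ) [NeZero N] : NInt N ≤ iotaK.toRingHom.range := by
  rintro x ⟨m, hm⟩
  apply mem_range_iotaK_of_isAlgebraic
  have h1 : IsAlgebraic ℚ ((N : ℂ) ^ m * x) := (hm.tower_top (A := ℚ)).isAlgebraic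
  have hN : (N : ℂ) ^ m ≠ 0 := pow_ne_zero _ (Nat.cast_ne_zero.mpr (NeZero.ne N))
  have h3 : x = algebraMap ℚ ℂ (((N : ℚ) ^ m)⁻¹) * ((N : ℂ) ^ m * x) := by
    simp only [map_inv₀, map_pow, map_natCast]
    field_simp
  rw [h3]
  exact (isAlgebraic_algebraMap _).mul h1

/-- the modular equation of level `q`, over `ℂ`, for the `t`-expansions (`t = T^{1/q}`) -/
theorem exists_relation_complex (q : ℕ) [NeZero q] :
    ∃ (n : ℕ) (P : ℕ → ℂ[X]), (∀ i, i < n → (P i).natDegree ≤ q * (n - i)) ∧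
      (∀ i k, (P i).coeff k ∈ iotaK.toRingHom.range) ∧
      (qExpand ℂ q (qExpand ℂ q (jqModC ℂ))) ^ n +
        ∑ i ∈ Finset.range n, aeval (jN q) (P i) * (qExpand ℂ q (qExpand ℂ q (jqModC ℂ))) ^ i
          = 0 := by
  classical
  have hJd : IsGamma0Inv q (Jd q) := fun γ hγ τ => Jd_invariant q q dvd_rfl γ hγ τ
  have hJdS : ∀ c : Q q, conj q (Jd q) c ∈ MF q :=
    fun c => Jd_comp_mem_MF q q dvd_rfl (Quotient.out c)⁻¹
  have hpoly : ∀ f : MF q, IsSL2Inv (f : ℍ → ℂ) → ∃ P : ℂ[X], f = aeval (jM q) P :=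
    fun f hf => exists_eq_aeval_jM q f hf
  set H : Q q → LaurentSeries ℂ := fun c => lauAlg q ⟨conj q (Jd q) c, hJdS c⟩ with hH
  have hcoef : ∀ i, ∃ P : ℂ[X], (∏ c, (X - C (H c))).coeff i = aeval (jN q) P := by
    intro i
    rw [← lauAlg_jM]
    exact charpoly_coeff_of (MF q) (lauAlg q) _ hpoly hJd hJdS i
  have hprops := fun c => lau_Jd_comp_props q q dvd_rfl (Quotient.out c)⁻¹ (hJdS c)
  have hH0 : H (Q.base q) = qExpand ℂ q (qExpand ℂ q (jqModC ℂ)) := by
    have h1 : (fun τ => Jfun (heckeDiagMatrix q • τ)) ∈ MF q := by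
      have := hJdS (Q.base q)
      rwa [conj_base hJd] at this
    have h2 : (⟨conj q (Jd q) (Q.base q), hJdS (Q.base q)⟩ : MF q) = ⟨_, h1⟩ :=
      Subtype.ext (conj_base hJd)
    rw [hH]
    simp only
    rw [lauAlg_apply, h2]
    exact lau_Jd q q dvd_rfl h1
  have hq0 : (0 : ℤ) < q := by exact_mod_cast Nat.pos_of_ne_zero (NeZero.ne q)
  have hlow : ∀ c ∈ (Finset.univ : Finset (Q q)), Low (H c) (-((q : ℤ) ^ 2)) := by
    intro c _ k hk
    refine (hprops c).2 k ?_
    have hg : ((Int.gcd q ((Quotient.out c)⁻¹ 1 0) : ℕ) : ℤ) ≤ q := by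
      have h1 : Int.gcd q ((Quotient.out c)⁻¹ 1 0) ∣ q := by
        have := Int.gcd_dvd_left (q : ℤ) ((Quotient.out c)⁻¹ 1 0)
        exact_mod_cast this
      exact_mod_cast Nat.le_of_dvd (Nat.pos_of_ne_zero (NeZero.ne q)) h1
    have hg0 : (0 : ℤ) ≤ ((Int.gcd q ((Quotient.out c)⁻¹ 1 0) : ℕ) : ℤ) := Int.natCast_nonneg _
    have h2 : ((Int.gcd q ((Quotient.out c)⁻¹ 1 0) : ℕ) : ℤ) ^ 2 ≤ (q : ℤ) ^ 2 := by nlinarith
    nlinarith
  set Φ : (LaurentSeries ℂ)[X] := ∏ c, (X - C (H c)) with hΦ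
  set n : ℕ := Fintype.card (Q q) with hn
  have hmonic : Φ.Monic := monic_prod_of_monic _ _ fun c _ => monic_X_sub_C _
  have hdeg : Φ.natDegree = n := by
    rw [hΦ, natDegree_prod_of_monic _ _ fun c _ => monic_X_sub_C _]
    simp [hn]
  have hroot : Φ.eval (H (Q.base q)) = 0 := by
    rw [hΦ, eval_prod]
    exact Finset.prod_eq_zero (Finset.mem_univ (Q.base q)) (by simp)
  choose P hP using hcoef
  have hO : ∀ i k, (Φ.coeff i).coeff k ∈ iotaK.toRingHom.range := by
    intro i k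
    choose H' hH' using fun c => exists_coeffMap_subtype iotaK.toRingHom.range (H c)
      (fun k => NInt_le_range q ((hprops c).1 k))
    have h1 : Φ = (∏ c, (X - C (H' c))).map (coeffMap iotaK.toRingHom.range.subtype) := by
      rw [map_prod_X_sub_C]
      exact Finset.prod_congr rfl fun c _ => by rw [hH']
    rw [h1, coeff_map, coeffMap_coeff]
    exact Subtype.mem _
  refine ⟨n, P, ?_, ?_, ?_⟩
  · intro i hi
    by_contra hcon
    rw [not_le] at hcon
    have h1 := (isMonicPole_jN q).coeff_aeval (P i)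
    have h2 := low_coeff_prod Finset.univ H ((q : ℤ) ^ 2) hlow i
    rw [← hP i] at h1
    rw [h2] at h1
    · have h3 : P i = 0 := leadingCoeff_eq_zero.1 h1.symm
      rw [h3] at hcon
      simp at hcon
    · rw [Finset.card_univ, ← hn]
      have h4 : ((q * (n - i) : ℕ) : ℤ) < (P i).natDegree := by exact_mod_cast hcon
      rw [Nat.cast_mul, Nat.cast_sub hi.le] at h4
      nlinarith
  · intro i
    exact coeff_mem_of_aeval_jN q _ (P i) (fun k => by rw [← hP i]; exact hO i k)
  · rw [← hH0]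
    rw [eval_eq_sum_range, hdeg, Finset.sum_range_succ, ← hdeg, hmonic.coeff_natDegree, one_mul,
      hdeg] at hroot
    rw [add_comm, ← hroot]
    congr 1
    exact Finset.sum_congr rfl fun i _ => by rw [hP i]

/-- the embedding `FN N → ℂ((t))`, `T ↦ t^q` -/
def toC (N q : ℕ) [NeZero q] : FN N →+* LaurentSeries ℂ :=
  (qExpand ℂ q).comp ((coeffMap iotaK.toRingHom).comp (modularFunctionFieldBar N).val.toRingHom)

theorem toC_apply (N q : ℕ) [NeZero q] (f : FN N) :
    toC N q f = qExpand ℂ q (coeffMap iotaK.toRingHom (f : LaurentSeries Kb)) := rfl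

theorem toC_algebraMap (N q : ℕ) [NeZero q] (a : Kb) :
    toC N q (algebraMap Kb (FN N) a) = algebraMap ℂ (LaurentSeries ℂ) (iotaK a) := by
  rw [toC_apply]
  have h1 : ((algebraMap Kb (FN N) a : FN N) : LaurentSeries Kb) =
      algebraMap Kb (LaurentSeries Kb) a := rfl
  rw [h1, algebraMap_laurent_eq_C, HahnSeries.C_apply, coeffMap_single,
    ← qExpandAlgHomC_apply, ← HahnSeries.C_apply, ← algebraMap_laurent_eq_C, AlgHom.commutes]
  rfl

theorem toC_aeval (N q : ℕ) [NeZero q] (x : FN N) (P : Kb[X]) :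
    toC N q (aeval x P) = aeval (toC N q x) (P.map iotaK.toRingHom) := by
  rw [aeval_def, aeval_def, hom_eval₂, eval₂_map]
  congr 1
  exact RingHom.ext fun a => toC_algebraMap N q a

variable {M q : ℕ} [NeZero M] [hq : Fact q.Prime]

theorem toC_jF : toC (M * q) q (jF (M * q)) = jN q := by
  rw [toC_apply, jF, coe_jBar, jqNModC_one, coeffMap_jqModC]
  rfl

theorem toC_jF' : toC (M * q) q (jF' M q) = qExpand ℂ q (qExpand ℂ q (jqModC ℂ)) := by
  rw [toC_apply, jF', coe_heckeBetaBar, jF, coe_jBar, jqNModC_one, coeffMap_qExpand,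
    coeffMap_jqModC]

/-- the modular equation in `FN (M q)` -/
theorem exists_relation (M q : ℕ) [NeZero M] [hq : Fact q.Prime] :
    ∃ (n : ℕ) (P : ℕ → Kb[X]), (∀ i, i < n → (P i).natDegree ≤ q * (n - i)) ∧
      (jF' M q) ^ n + ∑ i ∈ Finset.range n, aeval (jF (M * q)) (P i) * (jF' M q) ^ i = 0 := by
  obtain ⟨n, P, hdeg, hcoef, hrel⟩ := exists_relation_complex q
  have hl : ∀ i, ∃ P' : Kb[X], P'.map iotaK.toRingHom = P i := fun i =>
    (mem_lifts _).1 ((lifts_iff_coeff_lifts _).2 (fun k => hcoef i k))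
  choose P' hP' using hl
  refine ⟨n, P', fun i hi => ?_, ?_⟩
  · rw [← natDegree_map_eq_of_injective iotaK.toRingHom.injective, hP']
    exact hdeg i hi
  · apply (toC (M * q) q).injective
    rw [map_zero, map_add, map_pow, map_sum, toC_jF', ← hrel]
    congr 1
    refine Finset.sum_congr rfl fun i _ => ?_
    rw [map_mul, map_pow, toC_aeval, toC_jF, toC_jF', hP']

section Integral

theorem isIntegralElem_of_relation {R S : Type*} [CommRing R] [CommRing S] (φ : R →+* S) (s : S)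
    (n : ℕ) (c : ℕ → R) (h : s ^ n + ∑ i ∈ Finset.range n, φ (c i) * s ^ i = 0) :
    φ.IsIntegralElem s := by
  refine ⟨X ^ n + ∑ i ∈ Finset.range n, C (c i) * X ^ i, monic_X_pow_add ?_, ?_⟩
  · refine lt_of_le_of_lt (degree_sum_le _ _) ?_
    refine (Finset.sup_lt_iff (WithBot.bot_lt_coe n)).2 ?_
    intro i hi
    exact lt_of_le_of_lt (degree_C_mul_X_pow_le i _) (WithBot.coe_lt_coe.2 (Finset.mem_range.1 hi))
  · rw [eval₂_add, eval₂_pow, eval₂_X, eval₂_finsetSum, ← h]
    congr 1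
    exact Finset.sum_congr rfl fun i _ => by rw [eval₂_mul, eval₂_C, eval₂_pow, eval₂_X]

variable {K F : Type*} [Field K] [Field F] [Algebra K F]

/-- from the equation to the two integrality statements -/
theorem integral_of_relation {x y : F} (hx : x ≠ 0) (q n : ℕ) (P : ℕ → K[X])
    (hdeg : ∀ i, i < n → (P i).natDegree ≤ q * (n - i))
    (h : y ^ n + ∑ i ∈ Finset.range n, aeval x (P i) * y ^ i = 0) :
    (aeval x : K[X] →ₐ[K] F).toRingHom.IsIntegralElem y ∧
      (aeval x⁻¹ : K[X] →ₐ[K] F).toRingHom.IsIntegralElem (y * x⁻¹ ^ q) := by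
  refine ⟨isIntegralElem_of_relation _ y n P h,
    isIntegralElem_of_relation _ _ n (fun i => reflect (q * (n - i)) (P i)) ?_⟩
  have key : ∀ i, i < n → aeval x⁻¹ (reflect (q * (n - i)) (P i)) * x ^ (q * (n - i)) =
      aeval x (P i) := by
    intro i hi
    let _ : Invertible x := invertibleOfNonzero hx
    have := eval₂_reflect_mul_pow (algebraMap K F) x (q * (n - i)) (P i) (hdeg i hi)
    rwa [invOf_eq_inv] at this
  have h2 : (y * x⁻¹ ^ q) ^ n + ∑ i ∈ Finset.range n,
      aeval x⁻¹ (reflect (q * (n - i)) (P i)) * (y * x⁻¹ ^ q) ^ i =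
      (y ^ n + ∑ i ∈ Finset.range n, aeval x (P i) * y ^ i) * x⁻¹ ^ (q * n) := by
    rw [add_mul, Finset.sum_mul, mul_pow, ← pow_mul]
    congr 1
    refine Finset.sum_congr rfl fun i hi => ?_
    have hi' := Finset.mem_range.1 hi
    rw [← key i hi', mul_pow, ← pow_mul]
    have e : q * n = q * (n - i) + q * i := by rw [← mul_add, Nat.sub_add_cancel hi'.le]
    rw [e, pow_add]
    have hxx : x ^ (q * (n - i)) * x⁻¹ ^ (q * (n - i)) = 1 := by
      rw [← mul_pow, mul_inv_cancel₀ hx, one_pow]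
    calc _ = aeval x⁻¹ (reflect (q * (n - i)) (P i)) * (y ^ i * x⁻¹ ^ (q * i)) * 1 := by ring
      _ = _ := by rw [← hxx]; ring
  rw [h, zero_mul] at h2
  exact h2

theorem polarDiv_le_of_mem_L {x₀ : F} (hx₀ : IsSepParam K x₀) {u : F} {D : Divisor K F}
    (hD : 0 ≤ D) (hu : u ∈ riemannRochSpace D) : polarDiv K u ≤ D := by
  intro v
  rw [hx₀.polarDiv_apply]
  rcases (mem_L_iff.1 hu) with rfl | h
  · have := hD v
    simpa using this
  · have h1 := h v
    have h2 := hD v
    exact max_le (by linarith) h2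

end Integral

/-- **[CUSP-ORD]** -/
theorem cuspOrd (hqM : ¬ q ∣ M) : CuspOrd M q := by
  obtain ⟨n, P, hdeg, hrel⟩ := exists_relation M q
  have hs := RB.isSepParam_jF (M * q)
  have hj0 : jF (M * q) ≠ 0 := by
    intro h0
    exact hs.transcendental (h0 ▸ isAlgebraic_zero)
  have hj0' : jF' M q ≠ 0 := by
    intro h0
    apply hj0
    rw [← swAlg_jF' hqM, h0, map_zero]
  obtain ⟨I1, I2⟩ := integral_of_relation hj0 q n P hdeg hrel
  have J1 := isIntegralElem_map (swAlg M q hqM) I1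
  have J2 := isIntegralElem_map (swAlg M q hqM) I2
  rw [swAlg_jF, swAlg_jF'] at J1
  rw [map_inv₀, map_mul, map_pow, map_inv₀, swAlg_jF, swAlg_jF'] at J2
  exact ⟨polarDiv_le_of_mem_L hs (smul_nonneg (Nat.zero_le q) (polarDiv_nonneg _))
      ((mem_L_polar_iff hs hj0 q _).mpr ⟨I1, I2⟩),
    polarDiv_le_of_mem_L hs (smul_nonneg (Nat.zero_le q) (polarDiv_nonneg _))
      ((mem_L_polar_iff hs hj0' q _).mpr ⟨J1, J2⟩)⟩

end Fermat.Agent.SS.CuspB
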