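import Fermat.Agent.SS.Z1.LevelTwo
import Fermat.Agent.SS.ArchVal
import Fermat.Agent.RED.S37.Defs
import Fermat.Agent.RED.Gauss.Decomp
import Fermat.Agent.RED.GalEq.Residue

/-!
# Project SS : [COMPAT]  the decomposition group is compatible with the two reductions

`g_σ = arithmeticGalois (modularFunctionFieldFull (M * q)) σ`, `σ` in the decomposition group of
`A`, preserves the two reductions of `F_{Mq}` and induces the coefficientwise action of `σ̄` on
`Fb`.  For `σ` in the inertia group the induced action is trivial.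
-/

set_option autoImplicit false
set_option linter.unusedSectionVars false
set_option linter.style.haveILetI false

noncomputable section

open AlgebraicCurve ModularCurve

namespace Fermat.Agent.SS

open Fermat.Agent.RED hiding Kb
open Fermat.Agent.RED.Gauss Fermat.Agent.S24
open Fermat.Agent.RED.Cusp (Fb jb)

/-! ### abstract part: from the semi-local ring to its two localisations -/

section Abstract

variable {L : Type*} [Field L] {A : ValuationSubring L} {k : Type*} [Field k] {π : A →+* k}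
  {F : Type*} [Field F] [Algebra L F] {Fb : Type*} [Field Fb] [Algebra k Fb]

/-- `g` preserves the semi-local reduction `R` and induces `φ` on both components. -/
structure SemiRed.Compat (R : SemiRed π F (Fb × Fb)) (g : SemilinearAut L F)
    (φ : SemilinearAut k Fb) : Prop where
  mem : ∀ y ∈ R.O, g • y ∈ R.O
  rd : ∀ y ∈ R.O, R.rd (g • y) = (φ • (R.rd y).1, φ • (R.rd y).2)

variable {R : SemiRed π F (Fb × Fb)} {g : SemilinearAut L F} {φ : SemilinearAut k Fb}
  (hπ : Function.Surjective π) (hS : R.HasScale) (hsurj : Function.Surjective R.red)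

theorem semilinear_smul_mul {K E : Type*} [Field K] [Field E] [Algebra K E]
    (g : SemilinearAut K E) (x y : E) : g • (x * y) = g • x * g • y :=
  map_mul (SemilinearAut.toRingAut g) x y

theorem semilinear_smul_div {K E : Type*} [Field K] [Field E] [Algebra K E]
    (g : SemilinearAut K E) (x y : E) : g • (x / y) = g • x / g • y :=
  map_div₀ (SemilinearAut.toRingAut g) x y

theorem semilinear_smul_ne_zero {K E : Type*} [Field K] [Field E] [Algebra K E]
    (g : SemilinearAut K E) {x : E} (hx : x ≠ 0) : g • x ≠ 0 :=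
  (map_ne_zero_iff (SemilinearAut.toRingAut g) (SemilinearAut.toRingAut g).injective).2 hx

theorem SemiRed.Compat.mem_loc₁ (h : R.Compat g φ) {y : F} (hy : y ∈ (R.loc₁ hπ hS hsurj).O) :
    g • y ∈ (R.loc₁ hπ hS hsurj).O := by
  obtain ⟨x, hx, s, hs, h1, e⟩ := (R.mem_loc₁ hπ hS hsurj).1 hy
  refine (R.mem_loc₁ hπ hS hsurj).2 ⟨g • x, h.mem x hx, g • s, h.mem s hs, ?_, ?_⟩
  · rw [h.rd s hs]
    exact semilinear_smul_ne_zero φ h1
  · rw [← semilinear_smul_mul, e]

theorem SemiRed.Compat.loc₁_red (h : R.Compat g φ) {y : F} (hy : y ∈ (R.loc₁ hπ hS hsurj).O) :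
    (R.loc₁ hπ hS hsurj).red ⟨g • y, h.mem_loc₁ hπ hS hsurj hy⟩ =
      φ • (R.loc₁ hπ hS hsurj).red ⟨y, hy⟩ := by
  obtain ⟨x, hx, s, hs, h1, e⟩ := (R.mem_loc₁ hπ hS hsurj).1 hy
  rw [R.loc₁_red hπ hS hsurj hy hx hs h1 e,
    R.loc₁_red hπ hS hsurj (h.mem_loc₁ hπ hS hsurj hy) (h.mem x hx) (h.mem s hs)
      (by rw [h.rd s hs]; exact semilinear_smul_ne_zero φ h1)
      (by rw [← semilinear_smul_mul, e]),
    h.rd s hs, h.rd x hx, semilinear_smul_div]

theorem SemiRed.Compat.mem_loc₂ (h : R.Compat g φ) {y : F} (hy : y ∈ (R.loc₂ hπ hS hsurj).O) :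
    g • y ∈ (R.loc₂ hπ hS hsurj).O := by
  obtain ⟨x, hx, s, hs, h1, e⟩ := (R.mem_loc₂ hπ hS hsurj).1 hy
  refine (R.mem_loc₂ hπ hS hsurj).2 ⟨g • x, h.mem x hx, g • s, h.mem s hs, ?_, ?_⟩
  · rw [h.rd s hs]
    exact semilinear_smul_ne_zero φ h1
  · rw [← semilinear_smul_mul, e]

theorem SemiRed.Compat.loc₂_red (h : R.Compat g φ) {y : F} (hy : y ∈ (R.loc₂ hπ hS hsurj).O) :
    (R.loc₂ hπ hS hsurj).red ⟨g • y, h.mem_loc₂ hπ hS hsurj hy⟩ =
      φ • (R.loc₂ hπ hS hsurj).red ⟨y, hy⟩ := by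
  obtain ⟨x, hx, s, hs, h1, e⟩ := (R.mem_loc₂ hπ hS hsurj).1 hy
  rw [R.loc₂_red hπ hS hsurj hy hx hs h1 e,
    R.loc₂_red hπ hS hsurj (h.mem_loc₂ hπ hS hsurj hy) (h.mem x hx) (h.mem s hs)
      (by rw [h.rd s hs]; exact semilinear_smul_ne_zero φ h1)
      (by rw [← semilinear_smul_mul, e]),
    h.rd s hs, h.rd x hx, semilinear_smul_div]

/-- a semilinear automorphism fixing `f` fixes its polar divisor -/
theorem smul_polarDiv_of_smul_eq {K E : Type*} [Field K] [Field E] [Algebra K E] {x : E}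
    (hx : IsSepParam K x) (g : SemilinearAut K E) {f : E} (hf : g • f = f) :
    g • polarDiv K f = polarDiv K f := by
  ext v
  rw [SemilinearAut.divisor_smul_apply, hx.polarDiv_apply, hx.polarDiv_apply]
  have := SemilinearAut.ord_smul g (g⁻¹ • v) f
  rw [smul_inv_smul, hf] at this
  rw [this]

end Abstract

theorem resAut_eq_refl_of_mem_inertia' {A : ValuationSubring Kb} {σ : GQ}
    (hσ : σ ∈ A.inertiaSubgroupIn ℚ) :
    ∃ h : σ ∈ A.decompositionSubgroup ℚ, resAut A σ h = RingEquiv.refl _ := by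
  obtain ⟨s, hs, rfl⟩ := hσ
  refine ⟨s.2, ?_⟩
  ext x
  have := (MonoidHom.mem_ker (f := MulSemiringAction.toRingAut (A.decompositionSubgroup ℚ)
    (IsLocalRing.ResidueField A))).mp hs
  exact congrArg (fun e : RingAut (IsLocalRing.ResidueField A) => e x) this

/-! ### the Galois action commutes with the Atkin-Lehner swap -/

section Swap

variable (M q : ℕ) [NeZero M] [hq : Fact q.Prime] (hqM : ¬ q ∣ M)

/-- the Galois action on the function field of level `N` -/
abbrev gal (N : ℕ) (σ : GQ) : SemilinearAut Kb (FN N) :=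
  arithmeticGalois (modularFunctionFieldFull N) σ

theorem coe_gal_smul (N : ℕ) (σ : GQ) (y : FN N) :
    ((gal N σ • y : FN N) : LaurentSeries Kb) = coeffMap (σ : Kb →+* Kb) (y : LaurentSeries Kb) :=
  rfl

theorem gal_smul_jBar (N d : ℕ) [NeZero d] (hd : d ∣ N) (σ : GQ) :
    gal N σ • jBar N d hd = jBar N d hd := by
  apply Subtype.ext
  rw [coe_gal_smul, coe_jBar, ModularCurve.coeffMap_jqNModC]

theorem gal_smul_jF (N : ℕ) (σ : GQ) : gal N σ • jF N = jF N := gal_smul_jBar N 1 _ σ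

theorem gal_smul_algebraMap (N : ℕ) (σ : GQ) (a : Kb) :
    gal N σ • algebraMap Kb (FN N) a = algebraMap Kb (FN N) (σ a) :=
  SemilinearAut.smul_algebraMap _ a

theorem swAlg_jBar (d : ℕ) [NeZero d] (hd : d ∣ M) :
    swAlg M q hqM (jBar (M * q) d (hd.trans (dvd_mul_right M q))) =
      jBar (M * q) (q * d) (ES.mul_dvd_of_dvd M q hd) := by
  rw [← ES.heckeAlphaBar_jBar M q d hd, swAlg_alpha, ES.heckeBetaBar_jBar M q d hd]

theorem swAlg_jBar_mul (d : ℕ) [NeZero d] (hd : d ∣ M) :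
    swAlg M q hqM (jBar (M * q) (q * d) (ES.mul_dvd_of_dvd M q hd)) =
      jBar (M * q) d (hd.trans (dvd_mul_right M q)) := by
  rw [← ES.heckeBetaBar_jBar M q d hd, swAlg_beta, ES.heckeAlphaBar_jBar M q d hd]

/-- the swap of a `j(q^D)` is a `j(q^D')` -/
theorem exists_swAlg_jBar (D : ℕ) [NeZero D] (hD : D ∣ M * q) :
    ∃ (D' : ℕ) (_ : NeZero D') (hD' : D' ∣ M * q),
      swAlg M q hqM (jBar (M * q) D hD) = jBar (M * q) D' hD' := by
  by_cases hqD : q ∣ D
  · obtain ⟨d, rfl⟩ := hqD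
    have hd : d ∣ M := by
      rw [mul_comm M q] at hD
      exact Nat.dvd_of_mul_dvd_mul_left hq.out.pos hD
    have : NeZero d := ⟨fun h0 => NeZero.ne (q * d) (by rw [h0, mul_zero])⟩
    exact ⟨d, this, _, swAlg_jBar_mul M q hqM d hd⟩
  · have hd : D ∣ M :=
      (Nat.Coprime.dvd_of_dvd_mul_right ((Nat.Prime.coprime_iff_not_dvd hq.out).mpr hqD).symm hD)
    exact ⟨q * D, inferInstance, _, swAlg_jBar M q hqM D hd⟩

/-- **the swap is defined over `ℚ`** -/
theorem swAlg_gal_smul (σ : GQ) (y : FN (M * q)) :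
    swAlg M q hqM (gal (M * q) σ • y) = gal (M * q) σ • swAlg M q hqM y := by
  have key : (swAlg M q hqM).toRingHom.comp
        (SemilinearAut.toRingAut (gal (M * q) σ) : FN (M * q) ≃+* FN (M * q)).toRingHom =
      (SemilinearAut.toRingAut (gal (M * q) σ) : FN (M * q) ≃+* FN (M * q)).toRingHom.comp
        (swAlg M q hqM).toRingHom := by
    apply ringHom_ext_bar
    · intro a
      show swAlg M q hqM (gal (M * q) σ • algebraMap Kb (FN (M * q)) a) =
        gal (M * q) σ • swAlg M q hqM (algebraMap Kb (FN (M * q)) a)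
      rw [gal_smul_algebraMap, AlgHom.commutes, AlgHom.commutes, gal_smul_algebraMap]
    · intro D _ hD
      show swAlg M q hqM (gal (M * q) σ • jBar (M * q) D hD) =
        gal (M * q) σ • swAlg M q hqM (jBar (M * q) D hD)
      obtain ⟨D', _, hD', e⟩ := exists_swAlg_jBar M q hqM D hD
      rw [gal_smul_jBar, e, gal_smul_jBar]
  exact congrArg (fun φ : FN (M * q) →+* FN (M * q) => φ y) key

theorem emb₁_gal_smul (σ : GQ) (y : FN (M * q)) :
    emb₁ M q (gal (M * q) σ • y) = coeffMap (σ : Kb →+* Kb) (emb₁ M q y) := rfl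

theorem emb₂_gal_smul (σ : GQ) (y : FN (M * q)) :
    emb₂ M q hqM (gal (M * q) σ • y) = coeffMap (σ : Kb →+* Kb) (emb₂ M q hqM y) := by
  rw [emb₂, AlgHom.comp_apply, swAlg_gal_smul, emb₁_gal_smul]
  rfl

end Swap

/-! ### the decomposition group and the two-sided Gauss datum -/

section Concrete

variable {M q : ℕ} [NeZero M] [hq : Fact q.Prime] (hqM : ¬ q ∣ M)
variable {A : ValuationSubring Kb} {k : Type*} [Field k]
variable (π : A →+* k) [CharP k q] [IsAlgClosed k] (hπ : Function.Surjective π)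

/-- `g_σ` preserves the two-sided Gauss datum and induces the coefficientwise action of `τ`. -/
theorem RR_compat {σ : GQ} {σA : A →+* A} {τ : k ≃+* k}
    (hA : ∀ a : A, ((σA a : A) : Kb) = σ (a : Kb)) (hk : ∀ a : A, τ (π a) = π (σA a)) :
    (RR hqM π hπ).Compat (gal (M * q) σ) (coeffAut k M τ) := by
  have hC : Gauss.Compat π π (coeffMap (σ : Kb →+* Kb)) (coeffMap σA)
      (coeffMap (τ : k →+* k)) := compat_coeffMap _ _ _ hA hk
  have hmem : ∀ y ∈ (RR hqM π hπ).O, gal (M * q) σ • y ∈ (RR hqM π hπ).O := by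
    intro y hy
    rw [mem_RR_O] at hy ⊢
    rw [emb₁_gal_smul, emb₂_gal_smul]
    exact ⟨hC.mem_bigO hy.1, hC.mem_bigO hy.2⟩
  refine ⟨hmem, fun y hy => ?_⟩
  apply RR_rd_eq
  have hy' := hmem y hy
  rw [mem_RR_O] at hy hy'
  show (R₀ M q hqM π).rd (gal (M * q) σ • y) =
    (coeffMap (τ : k →+* k) (((RR hqM π hπ).rd y).1 : LaurentSeries k),
      coeffMap (τ : k →+* k) (((RR hqM π hπ).rd y).2 : LaurentSeries k))
  rw [coe_RR_rd_fst, coe_RR_rd_snd, R₀, ofEmb_rd hy.1 hy.2, ofEmb_rd hy'.1 hy'.2]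
  apply Prod.ext
  · exact (bigRed_congr π (emb₁_gal_smul M q σ y) hy'.1 (hC.mem_bigO hy.1)).trans
      (hC.bigRed_map ⟨_, hy.1⟩)
  · exact (bigRed_congr π (emb₂_gal_smul M q hqM σ y) hy'.2 (hC.mem_bigO hy.2)).trans
      (hC.bigRed_map ⟨_, hy.2⟩)

/-- **[COMPAT]** general form: `σ` in the decomposition group inducing `τ` on the residue field,
`τ` fixing the nodes. -/
theorem isCompat_gal {σ : GQ} {σA : A →+* A} {τ : k ≃+* k}
    (hA : ∀ a : A, ((σA a : A) : Kb) = σ (a : Kb)) (hk : ∀ a : A, τ (π a) = π (σA a))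
    (hσ : σ ∈ A.decompositionSubgroup ℚ) (𝒩 : NodalData (twoRed hqM π hπ))
    (hP : 𝒩.P = polarDiv Kb (jF (M * q)))
    (hx₁ : ∀ s, coeffAut k M τ • 𝒩.x₁ s = 𝒩.x₁ s)
    (hx₂ : ∀ s, coeffAut k M τ • 𝒩.x₂ s = 𝒩.x₂ s) :
    IsCompat 𝒩 (gal (M * q) σ) (coeffAut k M τ) := by
  have hC := RR_compat hqM π hπ hA hk
  exact
    { mem₁ := fun u => hC.mem_loc₁ hπ (hasScale hqM π hπ) (red_surjective hqM π hπ) u.2
      red₁ := fun u => hC.loc₁_red hπ (hasScale hqM π hπ) (red_surjective hqM π hπ) u.2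
      mem₂ := fun u => hC.mem_loc₂ hπ (hasScale hqM π hπ) (red_surjective hqM π hπ) u.2
      red₂ := fun u => hC.loc₂_red hπ (hasScale hqM π hπ) (red_surjective hqM π hπ) u.2
      unit := fun c hc => by
        rw [twoRed_A]
        exact valinv A hσ c hc
      P := by
        rw [hP]
        exact smul_polarDiv_of_smul_eq (RB.isSepParam_jF (M * q)) _ (gal_smul_jF _ σ)
      x₁ := hx₁
      x₂ := hx₂ }

end Concrete

section Residue

variable {M q : ℕ} [NeZero M] [hq : Fact q.Prime] (hqM : ¬ q ∣ M)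
variable (A : ValuationSubring Kb) [CharP (IsLocalRing.ResidueField A) q]
  [IsAlgClosed (IsLocalRing.ResidueField A)]

/-- **[COMPAT]** for the decomposition group. -/
theorem isCompat_of_mem_decomposition {σ : GQ} (hσ : σ ∈ A.decompositionSubgroup ℚ)
    (𝒩 : NodalData (twoRed hqM (IsLocalRing.residue A) IsLocalRing.residue_surjective))
    (hP : 𝒩.P = polarDiv Kb (jF (M * q)))
    (hx₁ : ∀ s, coeffAut (IsLocalRing.ResidueField A) M (resAut A σ hσ) • 𝒩.x₁ s = 𝒩.x₁ s)
    (hx₂ : ∀ s, coeffAut (IsLocalRing.ResidueField A) M (resAut A σ hσ) • 𝒩.x₂ s = 𝒩.x₂ s) :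
    IsCompat 𝒩 (gal (M * q) σ) (coeffAut (IsLocalRing.ResidueField A) M (resAut A σ hσ)) :=
  isCompat_gal hqM _ _ (σA := GalEq.decompHom A σ hσ) (fun _ => rfl) (fun _ => rfl) hσ 𝒩 hP hx₁ hx₂

/-- **[COMPAT-I]** the inertia group induces the identity on the special fibre. -/
theorem isCompat_of_mem_inertia {σ : GQ} (hσ : σ ∈ A.inertiaSubgroupIn ℚ)
    (𝒩 : NodalData (twoRed hqM (IsLocalRing.residue A) IsLocalRing.residue_surjective))
    (hP : 𝒩.P = polarDiv Kb (jF (M * q))) : IsCompat 𝒩 (gal (M * q) σ) 1 := by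
  obtain ⟨hσ', hrefl⟩ := resAut_eq_refl_of_mem_inertia' hσ
  have h := isCompat_of_mem_decomposition hqM A hσ' 𝒩 hP
  rw [hrefl, coeffAut_refl] at h
  exact h (fun s => one_smul _ _) (fun s => one_smul _ _)

end Residue

end Fermat.Agent.SS
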