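import Fermat.Agent.SS.Mod.Compat
import Fermat.Agent.SS.Abs.Main
import Fermat.Agent.SS.Desc

/-!
# Project SS : [UNIP-RIGID]  unipotency of inertia at level `M * q` from a nodal datum
-/

set_option autoImplicit false
set_option linter.unusedSectionVars false
set_option linter.style.haveILetI false

noncomputable section

open AlgebraicCurve ModularCurve

namespace Fermat.Agent.SS

open Fermat.Agent.RED hiding Kb
open Fermat.Agent.S24
open Fermat.Agent.RED.Cusp (Fb jb)

/-- The geometric input at the level `M * q`: for every place of `ℚ̄` above `q`, a nodal datum for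
the two reductions, with first chart `(j)_∞`. -/
def HasNodal (M q : ℕ) [NeZero M] [Fact q.Prime] (hqM : ¬ q ∣ M) : Prop :=
  ∀ (A : ValuationSubring Kb), A.LiesOverPrime q →
    ∀ [CharP (IsLocalRing.ResidueField A) q] [IsAlgClosed (IsLocalRing.ResidueField A)],
      ∃ 𝒩 : NodalData (twoRed hqM (IsLocalRing.residue A) IsLocalRing.residue_surjective),
        𝒩.P = polarDiv Kb (jF (M * q))

variable {M q : ℕ} [NeZero M] [hq : Fact q.Prime] (hqM : ¬ q ∣ M)

/-- **[UNIP-RIGID]** -/
theorem unip_of_hasNodal (H : HasNodal M q hqM) {p : ℕ} (hp : p.Prime) (hpq : p ≠ q) :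
    GAL.PC.UNIP (M * q) p q := by
  intro A hA τ hτ x hx
  obtain ⟨n, hn⟩ := hx
  haveI : IsAlgClosed (IsLocalRing.ResidueField A) := GalEq.isAlgClosed_residueField A
  haveI : CharP (IsLocalRing.ResidueField A) q := GalEq.charP_residueField hq.out hA
  obtain ⟨𝒩, hP⟩ := H A hA
  have hg := isCompat_of_mem_inertia hqM A hτ 𝒩 hP
  have hpk : (p : IsLocalRing.ResidueField A) ≠ 0 := by
    intro h0
    have := (CharP.cast_eq_zero_iff (IsLocalRing.ResidueField A) q p).1 h0
    exact hpq ((Nat.prime_dvd_prime_iff_eq hq.out hp).1 this).symm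
  have key := unipotent_of_torsion 𝒩 (RB.isSepParam_jF (M * q))
    (Cusp.isSepParam_jb M (IsLocalRing.ResidueField A) q hqM) hp hpk n hg hg (y := x) hn
  rw [smul_sub] at key
  show gal (M * q) τ • gal (M * q) τ • x - 2 • gal (M * q) τ • x + x = 0
  rw [two_nsmul]
  have h2 : gal (M * q) τ • gal (M * q) τ • x =
      gal (M * q) τ • x - x + gal (M * q) τ • x := by
    rw [← key]; abel
  rw [h2]
  abel

/-- `UNIP` at a level `N` exactly divisible by `q`, from the nodal datum at the rigid level. -/
theorem unip_of_hasNodal_aux {N M : ℕ} [NeZero N] [NeZero M] (hqM : ¬ q ∣ M)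
    (hN : N * aux q = M * q) (H : HasNodal M q hqM) {p : ℕ} (hp : p.Prime) (hpq : p ≠ q) :
    GAL.PC.UNIP N p q := by
  refine unip_of_aux N hp.ne_zero q ?_
  rw [hN]
  exact unip_of_hasNodal hqM H hp hpq

end Fermat.Agent.SS
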