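import Fermat.Agent.GAL.AD.Cusps
import Fermat.Agent.GAL.AD.Points
import Fermat.Agent.RED.ES.Swap
import Fermat.Agent.RED.FF.Riemann
import Fermat.Agent.RR.Modular
import Fermat.Agent.S24.Growth

/-!
# SS / Mod : [CUSP-ORD]

Comparison of the polar divisors of `j` and `j_q = j(q τ)` on `X₀(M q)`:
`(j_q)_∞ ≤ q (j)_∞` and `(j)_∞ ≤ q (j_q)_∞`.

* `polarDiv_jBar_le` : `(j_d)_∞ ≤ d (j)_∞` on `X₀(N)`, every `d ∣ N` (analytic dictionary of
  `GAL/AD` + the growth estimate `Δ ^ d * (j_d ∘ g)` bounded);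
* `polarDiv_alpha_le`, `polarDiv_beta_le` : the two inequalities in terms of the degeneracy maps,
  the second from the first by the Atkin-Lehner swap.
-/

set_option autoImplicit false

open UpperHalfPlane hiding I
open Function ModularCurve AlgebraicCurve CongruenceSubgroup ModularForm
open scoped MatrixGroups Manifold

namespace Fermat.Agent.SS.Mod

open Fermat.Agent.S24 Fermat.Agent.RED Fermat.Agent.GAL.AD

noncomputable section

/-- `Δ` as an element of `HolPer N`. -/
def discPer (N : ℕ) : HolPer N := inclPer (one_dvd N) ⟨_, discriminant_mem_HolPer_one⟩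

theorem coe_discPer (N : ℕ) : (discPer N : ℍ → ℂ) = ModularForm.discriminant := rfl

theorem pow_disc_mul_jd_mem_HolPer {d N : ℕ} [NeZero d] (hd : d ∣ N) (g : SL(2, ℤ)) :
    (fun τ => ModularForm.discriminant τ ^ d * jd d (g • τ)) ∈ HolPer N := by
  rw [mem_HolPer_iff]
  refine ⟨?_, ?_, isBoundedAtImInfty_pow_discriminant_mul_jd d g⟩
  · have h1 : MDiff (ModularForm.discriminant : ℍ → ℂ) := discriminant_mem_HolPer_one.1
    have h2 : MDiff (fun τ => jd d (g • τ)) := by
      have := (actHol g⁻¹ (jdHol d)).2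
      have e : ((actHol g⁻¹ (jdHol d) : Hol) : ℍ → ℂ) = fun τ => jd d (g • τ) := by
        funext τ
        rw [actHol_apply, inv_inv]
        rfl
      rw [← e]
      exact this
    exact (h1.pow d).mul h2
  · intro τ
    obtain ⟨A, B, hB, hAB⟩ := exists_jd_smul_eq_div hd g
    have h3 := HolPer.vadd_apply (discPer N) τ
    rw [coe_discPer] at h3
    simp only [hAB, HolPer.vadd_apply A, HolPer.vadd_apply B, h3]

/-- `Δ ^ d * (j_d ∘ g)` as an element of `HolPer N`. -/
def numPer {d N : ℕ} [NeZero d] (hd : d ∣ N) (g : SL(2, ℤ)) : HolPer N :=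
  ⟨_, pow_disc_mul_jd_mem_HolPer hd g⟩

theorem order_ofPowerSeries_nonneg (p : PowerSeries ℂ) :
    0 ≤ (HahnSeries.ofPowerSeries ℤ ℂ p).order := by
  by_cases hp : HahnSeries.ofPowerSeries ℤ ℂ p = 0
  · rw [hp, HahnSeries.order_zero]
  · rw [HahnSeries.le_order_iff_forall hp]
    intro k hk
    exact ofPowerSeries_coeff_neg p hk

theorem order_discPer_le (N : ℕ) [NeZero N] :
    (toLaurent N (algebraMap _ (MerPer N) (discPer N))).order ≤ N := by
  have h1 : toLaurent N (algebraMap _ (MerPer N) (discPer N)) = qExpLaurent N (discPer N) :=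
    toLaurent_algebraMap N _
  rw [h1, discPer, qExpLaurent_inclPer 1 (N := N) (M := N) (mul_one N).symm, order_qExpand]
  have h2 : (qExpLaurent 1 ⟨_, discriminant_mem_HolPer_one⟩).order ≤ 1 := by
    apply HahnSeries.order_le_of_coeff_ne_zero
    show (HahnSeries.ofPowerSeries ℤ ℂ (qExpansion ((1 : ℕ) : ℝ)
      (ModularForm.discriminant : ℍ → ℂ))).coeff 1 ≠ 0
    have := HahnSeries.ofPowerSeries_apply_coeff (Γ := ℤ) (qExpansion (1 : ℝ)
      (ModularForm.discriminant : ℍ → ℂ)) 1
    rw [Nat.cast_one] at this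
    rw [Nat.cast_one, this, discriminant_qExpansion_coeff_one]
    exact one_ne_zero
  have hN : (0 : ℤ) < N := by exact_mod_cast Nat.pos_of_ne_zero (NeZero.ne N)
  nlinarith

/-- the key estimate at the cusps -/
theorem order_sigmaInfK_jK_ge {K : Type*} [Field K] [Algebra ℚ K] (ι : K →+* ℂ) (N : ℕ) [NeZero N]
    (d : ℕ) [NeZero d] (hd : d ∣ N) (x : XN N) :
    -((d : ℤ) * N) ≤ (sigmaInfK ι N x (jK K N d hd)).order := by
  set g : SL(2, ℤ) := (Quotient.out x)⁻¹ with hg
  have hD0 : algebraMap (HolPer N) (MerPer N) (discPer N) ≠ 0 := by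
    rw [Ne, map_eq_zero_iff _ (IsFractionRing.injective (HolPer N) (MerPer N))]
    intro h
    exact discriminant_ne_zero UpperHalfPlane.I
      (congrFun (congrArg Subtype.val h) UpperHalfPlane.I)
  have key : sigmaPerK ι N x (jK K N d hd) * algebraMap _ (MerPer N) (discPer N) ^ d =
      algebraMap _ (MerPer N) (numPer hd g) := by
    apply toMer_injective N
    rw [map_mul, map_pow, toMer_sigmaPerK, toMer_algebraMap, toMer_algebraMap, sigmaK, sigma0K_jK,
      ← map_pow, ← map_mul]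
    congr 1
    apply Subtype.ext
    funext τ
    show (actHol (Quotient.out x) (jdHol d) : ℍ → ℂ) τ * (ModularForm.discriminant τ) ^ d =
      ModularForm.discriminant τ ^ d * jd d (g • τ)
    rw [actHol_apply, mul_comm]
    rfl
  have key2 := congrArg (toLaurent N) key
  rw [map_mul, map_pow, ← sigmaInfK_apply, toLaurent_algebraMap N (numPer hd g)] at key2
  by_cases hjne : sigmaInfK ι N x (jK K N d hd) = 0
  · rw [hjne, HahnSeries.order_zero]
    have : (0 : ℤ) ≤ (d : ℤ) * N := by positivity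
    omega
  have hDne : toLaurent N (algebraMap _ (MerPer N) (discPer N)) ≠ 0 := by
    rw [Ne, map_eq_zero_iff _ (toLaurent N).injective]
    exact hD0
  have h3 := HahnSeries.order_mul hjne (pow_ne_zero d hDne)
  rw [key2, HahnSeries.order_pow] at h3
  have h4 := order_ofPowerSeries_nonneg (qExpansion (N : ℝ) (numPer hd g : ℍ → ℂ))
  have h5 := order_discPer_le N
  rw [h3] at h4
  have h6 : d • (toLaurent N (algebraMap _ (MerPer N) (discPer N))).order ≤ (d : ℤ) * N := by
    rw [nsmul_eq_mul]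
    exact mul_le_mul_of_nonneg_left h5 (by positivity)
  linarith

section General

variable {K : Type*} [Field K] [Algebra ℚ K] (ι : K →+* ℂ) [IsAlgClosed K] (N : ℕ) [NeZero N]

include ι in
/-- `j_d` is regular where `j` is. -/
theorem ord_jK_nonneg (d : ℕ) [NeZero d] (hd : d ∣ N) (v : Place K (FK K N))
    (hv : jK1 K N ∈ v.toValuationSubring) : 0 ≤ v.ord (jK K N d hd) := by
  by_cases h0 : jK K N d hd = 0
  · rw [h0, Place.ord_zero]
  obtain ⟨τ, k, hk, h1, -⟩ := exists_point_of_place ι N v hv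
  have h2 := h1 _ h0
  rw [thetaK_jK, merVal_algebraMap] at h2
  have h3 := holVal_le_one τ (jdHol d)
  rw [h2, ← WithZero.exp_zero, WithZero.exp_le_exp] at h3
  have hk' : (0 : ℤ) < k := by exact_mod_cast hk
  by_contra hcon
  push Not at hcon
  nlinarith

include ι in
/-- the pole of `j_d` is at most `d` times the pole of `j`. -/
theorem mul_ord_jK1_le (d : ℕ) [NeZero d] (hd : d ∣ N) (v : Place K (FK K N))
    (hv : v.ord (jK1 K N) < 0) : (d : ℤ) * v.ord (jK1 K N) ≤ v.ord (jK K N d hd) := by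
  by_cases h0 : jK K N d hd = 0
  · rw [h0, Place.ord_zero]
    have : (0 : ℤ) ≤ d := by positivity
    nlinarith
  obtain ⟨x, k, s, hks, -, h1⟩ := exists_cusp_of_place ι N v hv
  have hj0 : jK1 K N ≠ 0 := by
    intro h
    rw [h, Place.ord_zero] at hv
    exact lt_irrefl _ hv
  have h2 := h1 _ h0
  have h3 := h1 _ hj0
  rw [sigmaInfK_jK1, order_qExpand, order_jqModC] at h3
  have h4 := order_sigmaInfK_jK_ge ι N d hd x
  rw [h2] at h4
  have hk : 0 < k := by
    rcases Nat.eq_zero_or_pos k with h | h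
    · rw [h, zero_mul] at hks
      exact absurd hks.symm (NeZero.ne N)
    · exact h
  have hk' : (0 : ℤ) < k := by exact_mod_cast hk
  have h5 : (k : ℤ) * ((d : ℤ) * v.ord (jK1 K N)) ≤ (k : ℤ) * v.ord (jK K N d hd) := by
    calc (k : ℤ) * ((d : ℤ) * v.ord (jK1 K N)) = (d : ℤ) * ((k : ℤ) * v.ord (jK1 K N)) := by ring
      _ = -((d : ℤ) * N) := by rw [← h3]; ring
      _ ≤ _ := h4
  exact le_of_mul_le_mul_left h5 hk'

end General

theorem jK_eq_jBar (N d : ℕ) [NeZero d] (hd : d ∣ N) : jK Kb N d hd = jBar N d hd :=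
  Subtype.ext (coeffEmb_qExpand_jq Kb d).symm

theorem jK1_eq_jF (N : ℕ) : jK1 Kb N = jF N := jK_eq_jBar N 1 (one_dvd N)

/-- `(j_d)_∞ ≤ d (j)_∞` on `X₀(N)`. -/
theorem polarDiv_jBar_le (N : ℕ) [NeZero N] (d : ℕ) [NeZero d] (hd : d ∣ N) :
    polarDiv Kb (jBar N d hd) ≤ d • polarDiv Kb (jF N) := by
  intro v
  have hx := RR.isSepParam_jF N
  rw [Finsupp.smul_apply, hx.polarDiv_apply, hx.polarDiv_apply, ← jK_eq_jBar, ← jK1_eq_jF,
    nsmul_eq_mul]
  have hd0 : (0 : ℤ) ≤ d := by positivity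
  by_cases hv : v.ord (jK1 Kb N) < 0
  · have h1 := mul_ord_jK1_le iotaK.toRingHom N d hd v hv
    rw [max_eq_left (by omega : (0 : ℤ) ≤ -v.ord (jK1 Kb N))]
    apply max_le
    · linarith
    · nlinarith
  · push Not at hv
    have hmem : jK1 Kb N ∈ v.toValuationSubring := by
      by_cases h0 : jK1 Kb N = 0
      · rw [h0]; exact zero_mem _
      · exact (Place.mem_iff_ord_nonneg v h0).2 hv
    have h1 := ord_jK_nonneg iotaK.toRingHom N d hd v hmem
    rw [max_eq_right (by omega), max_eq_right (by omega), mul_zero]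

/-- An inequality between polar divisors is transported by a `K`-endomorphism of the function
field. -/
theorem polarDiv_map_le {K F : Type*} [Field K] [Field F] [Algebra K F] {x : F}
    (hx : IsSepParam K x) (s : F →+* F) (hs : ∀ a : K, s (algebraMap K F a) = algebraMap K F a)
    (f g : F) (n : ℕ) (h : polarDiv K f ≤ n • polarDiv K g) :
    polarDiv K (s f) ≤ n • polarDiv K (s g) := by
  intro v
  rw [Finsupp.smul_apply, hx.polarDiv_apply, hx.polarDiv_apply, nsmul_eq_mul]
  have hn0 : (0 : ℤ) ≤ n := by positivity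
  by_cases hv : 0 ≤ v.ord (s f)
  · rw [max_eq_right (by omega)]
    exact mul_nonneg hn0 (le_max_right _ _)
  push Not at hv
  have hsf0 : s f ≠ 0 := by
    intro h0
    rw [h0, Place.ord_zero] at hv
    exact lt_irrefl _ hv
  have hf0 : f ≠ 0 := fun h0 => hsf0 (by rw [h0, map_zero])
  obtain ⟨v', hv'⟩ := hx.exists_place_eq' (v.toValuationSubring.comap s)
    (fun a => by
      rw [ValuationSubring.mem_comap, hs]
      exact v.algebraMap_mem' a)
    (by
      intro htop
      have h1 : f ∈ v.toValuationSubring.comap s := by rw [htop]; trivial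
      rw [ValuationSubring.mem_comap, Place.mem_iff_ord_nonneg v hsf0] at h1
      omega)
  obtain ⟨m, hm, hmv⟩ := Place.exists_mul_ord_eq v' (fun u => v.ord (s u))
    (fun a b ha hb => by
      show v.ord (s (a * b)) = _
      rw [map_mul, v.ord_mul ((map_ne_zero s).2 ha) ((map_ne_zero s).2 hb)])
    (fun a ha => by
      rw [hv', ValuationSubring.mem_comap, Place.mem_iff_ord_nonneg v ((map_ne_zero s).2 ha)])
  have h1 := h v'
  rw [Finsupp.smul_apply, hx.polarDiv_apply, hx.polarDiv_apply, nsmul_eq_mul] at h1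
  have h2 : v.ord (s f) = m * v'.ord f := hmv f hf0
  have h3 : v.ord (s g) = m * v'.ord g := by
    by_cases hg0 : g = 0
    · rw [hg0, map_zero, Place.ord_zero, Place.ord_zero, mul_zero]
    · exact hmv g hg0
  rw [h2, h3]
  have e : ∀ a : ℤ, max (-(m * a)) 0 = m * max (-a) 0 := by
    intro a
    rw [mul_max_of_nonneg _ _ hm.le, mul_zero, mul_neg]
  rw [e, e]
  calc m * max (-v'.ord f) 0 ≤ m * ((n : ℤ) * max (-v'.ord g) 0) :=
        mul_le_mul_of_nonneg_left h1 hm.le
    _ = _ := by ring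

section Level

variable (M q : ℕ) [NeZero M] [NeZero q]

/-- **[CUSP-ORD] (1)** : `(j_q)_∞ ≤ q (j)_∞` on `X₀(M q)`. -/
theorem polarDiv_beta_le :
    polarDiv Kb (heckeBetaBar Kb M q (jF M)) ≤ q • polarDiv Kb (heckeAlphaBar Kb M q (jF M)) := by
  have h1 : heckeAlphaBar Kb M q (jF M) = jF (M * q) := ES.heckeAlphaBar_jBar M q 1 (one_dvd M)
  have h2 := ES.heckeBetaBar_jBar M q 1 (one_dvd M)
  have h3 : heckeBetaBar Kb M q (jF M) = jBar (M * q) (q * 1) (ES.mul_dvd_of_dvd M q (one_dvd M)) :=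
    h2
  rw [h1, h3]
  refine (polarDiv_jBar_le (M * q) (q * 1) (ES.mul_dvd_of_dvd M q (one_dvd M))).trans
    (le_of_eq ?_)
  rw [mul_one]

/-- **[CUSP-ORD] (2)** : `(j)_∞ ≤ q (j_q)_∞` on `X₀(M q)`, `q` a prime not dividing `M`. -/
theorem polarDiv_alpha_le (hq : q.Prime) (hqM : ¬ q ∣ M) :
    polarDiv Kb (heckeAlphaBar Kb M q (jF M)) ≤ q • polarDiv Kb (heckeBetaBar Kb M q (jF M)) := by
  obtain ⟨s, hs, hα, hβ⟩ := ES.exists_swap M q hq hqM
  have := polarDiv_map_le (RR.isSepParam_jF (M * q)) s hs _ _ q (polarDiv_beta_le M q)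
  rwa [hα, hβ] at this

end Level

end

end Fermat.Agent.SS.Mod
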